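import Fermat.Agent.HeckeRed.Package
import Fermat.Agent.WeilPairing.EvalDiv
import Fermat.Agent.Cusps.GenusQb

/-!
# A function whose divisor is divisible by `p` and whose residue is a `p`-th power is a `p`-th power
-/

set_option autoImplicit false

noncomputable section

open AlgebraicCurve Module ModularCurve HahnSeries

namespace Fermat.Agent.LGR

open Fermat.Agent.FunField Fermat.Agent.FunField.PlaceLemmas Fermat.Agent.Deuring
  Fermat.Agent.HeckeRed

section Abs

variable {L k F F₁ : Type*} [Field L] [Field k] [Field F] [Field F₁] [Algebra L F] [Algebra k F₁]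
  [IsFF L F] [IsFF k F₁] [IsAlgClosed L] [IsAlgClosed k]

omit [IsFF k F₁] [IsAlgClosed L] [IsAlgClosed k] in
/-- if all orders of `f` are divisible by `p` the divisor of `f` is `p` times a divisor -/
theorem exists_smul_eq_divOf {p : ℕ} {f : F}
    (hf : ∀ v : Place L F, (p : ℤ) ∣ v.ord f) :
    ∃ D : Divisor L F, p • D = divOf f := by
  let D : Divisor L F := (divOf f : Divisor L F).mapRange (fun n => n / (p : ℤ)) (by simp)
  have h1 : p • D = divOf f := by
    ext v
    rw [Finsupp.smul_apply, Finsupp.mapRange_apply, divOf_apply, nsmul_eq_mul]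
    exact Int.mul_ediv_cancel' (hf v)
  exact ⟨D, h1⟩

/-- abstract form -/
theorem abs_exists_root {𝔇 : Data L k F F₁} {r : Place L F → Place k F₁} (hr : IsReduction 𝔇 r)
    {g : ℤ} (hRR : RRLarge L F g) (hRR₁ : RRLarge k F₁ g) {p : ℕ} (hp : (p : k) ≠ 0)
    (f : 𝔇.O) (hf : ∀ v : Place L F, (p : ℤ) ∣ v.ord (f : F)) {y : F₁} (hy : y ≠ 0)
    (hres : 𝔇.res f = y ^ p) : ∃ h : F, h ≠ 0 ∧ h ^ p = (f : F) := by
  have hp0 : p ≠ 0 := by
    rintro rfl
    simp at hp
  have hres0 : 𝔇.res f ≠ 0 := by rw [hres]; exact pow_ne_zero _ hy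
  have hf0 : (f : F) ≠ 0 := 𝔇.coe_ne_zero_of_res_ne_zero hres0
  obtain ⟨D, hD⟩ := exists_smul_eq_divOf (L := L) hf
  have h1 : p • D ∈ Divisor.principal (K := L) (F := F) := by
    rw [hD]
    exact ⟨f, hf0, fun v => divOf_apply _ v⟩
  have h2 : Finsupp.mapDomain r D = divOf y := by
    have h3 := hr.mapDomain_divOf f hres0
    rw [← hD, TorsInj.mapDomain_nsmul, hres, TorsInj.divOf_pow] at h3
    ext v
    have h4 := DFunLike.congr_fun h3 v
    rw [Finsupp.smul_apply, Finsupp.smul_apply, nsmul_eq_mul, nsmul_eq_mul] at h4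
    have h5 : (p : ℤ) ≠ 0 := by exact_mod_cast hp0
    exact mul_left_cancel₀ h5 h4
  have h3 : Finsupp.mapDomain r D ∈ Divisor.principal (K := k) (F := F₁) := by
    rw [h2]
    exact ⟨y, hy, fun v => divOf_apply _ v⟩
  have h4 : D ∈ Divisor.principal (K := L) (F := F) :=
    Fermat.Agent.TorsInj.torsion_injective hRR hRR₁ (𝔇 := 𝔇) (r := r) hr.div hr.lift hp
      h1 h3
  obtain ⟨h, hh0, hh⟩ := h4
  have h5 : (divOf (f : F) : Divisor L F) = divOf (h ^ p) := by
    rw [← hD, TorsInj.divOf_pow]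
    congr 1
    ext v
    rw [hh v, divOf_apply]
  obtain ⟨c, hc, hfc⟩ := WeilPairing.exists_const_of_divOf_eq hf0 (pow_ne_zero p hh0) h5
  obtain ⟨d, hd⟩ := IsAlgClosed.exists_pow_nat_eq c (Nat.pos_of_ne_zero hp0)
  refine ⟨algebraMap L F d * h, mul_ne_zero ?_ hh0, ?_⟩
  · rw [Ne, map_eq_zero]
    rintro rfl
    rw [zero_pow hp0] at hd
    exact hc hd.symm
  · rw [mul_pow, ← map_pow, hd, hfc]

end Abs

section Concrete

open Fermat.Agent.Igusa Fermat.Agent.Cusps

/-- **LG-INJ.** -/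
theorem exists_root (A : ValuationSubring (AlgebraicClosure ℚ)) {κ : Type*} [Field κ]
    [IsAlgClosed κ] (π : A →+* κ) [IsLocalHom π] (hπ : Function.Surjective π) (N : ℕ) [NeZero N]
    (hN : (N : κ) ≠ 0) {p : ℕ} (hp : (p : κ) ≠ 0)
    (f : modularFunctionFieldFullC (AlgebraicClosure ℚ) N)
    (hf : ∀ v : Place (AlgebraicClosure ℚ) (modularFunctionFieldFullC (AlgebraicClosure ℚ) N),
      (p : ℤ) ∣ v.ord f)
    (hmem : (f : LaurentSeries (AlgebraicClosure ℚ)) ∈ gaussRing A π)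
    {y : modularFunctionFieldFullC κ N} (hy : y ≠ 0)
    (hres : gaussRes A π ⟨f, hmem⟩ = (y : LaurentSeries κ) ^ p) :
    ∃ h : modularFunctionFieldFullC (AlgebraicClosure ℚ) N, h ≠ 0 ∧ h ^ p = f := by
  have hL : (N : AlgebraicClosure ℚ) ≠ 0 := Nat.cast_ne_zero.mpr (NeZero.ne N)
  have hg := genusFF_eq_Qb A π hπ N hN
  have hRR := TorsInj.rrLarge_genusFF (K := AlgebraicClosure ℚ)
    (F := modularFunctionFieldFullC (AlgebraicClosure ℚ) N)
  have hRR₁ := TorsInj.rrLarge_genusFF (K := κ) (F := modularFunctionFieldFullC κ N)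
  rw [hg] at hRR₁
  obtain ⟨r, hr1, hr2⟩ := (redData A π hπ N hL hN).exists_reduction hRR hRR₁
  exact abs_exists_root (𝔇 := redData A π hπ N hL hN) ⟨hr1, hr2⟩ hRR hRR₁ hp ⟨f, hmem⟩ hf hy
    (Subtype.ext hres)

end Concrete

end Fermat.Agent.LGR
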