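import Fermat.Agent.BadRed.Conc3

/-!
# The residue field of the Gauss valuation at level `N r`, `r` the residue characteristic
-/

set_option autoImplicit false

noncomputable section

open HahnSeries ModularCurve Module

namespace Fermat.Agent.LGR

open Fermat.Agent.Igusa Fermat.Agent.BadRed

section Arch

variable {L : Type*} [Field L] {A : ValuationSubring L} {κ : Type*} [Field κ] {π : A →+* κ}

/-- rank one condition -/
def IsArch (π : A →+* κ) : Prop := ∀ a : A, π a = 0 → ∀ b : L, ∃ B : ℕ, (a : L) ^ B * b ∈ A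

theorem IsArch.archA (h : IsArch π) : ArchA π := by
  intro ε hε0 hε a ha
  obtain ⟨B, hB⟩ := h ε hε (a⁻¹ * (ε : L)⁻¹)
  refine ⟨B, fun hcon => ?_⟩
  have h1 : (⟨_, hcon⟩ : A) * (⟨_, hB⟩ * ε) = 1 := by
    apply Subtype.ext
    push_cast
    have := pow_ne_zero B hε0
    field_simp
  have h2 := congrArg π h1
  rw [map_mul, map_mul, hε, mul_zero, mul_zero, map_one] at h2
  exact zero_ne_one h2

end Arch

variable {L : Type*} [Field L] [IsAlgClosed L] [CharZero L] (A : ValuationSubring L)
  {κ : Type*} [Field κ] (π : A →+* κ) [IsLocalHom π] (hπ : Function.Surjective π)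
  (N r : ℕ) [hr : Fact r.Prime] [hN : NeZero N] [CharP κ r] (hrN : ¬ r ∣ N)

include hrN in
/-- **LG-V1.** -/
theorem gaussImage_le (harch : ArchA π) :
    gaussImage A π (isTameField_full (L := L) (N * r)) hπ ≤ modularFunctionFieldFullC κ N := by
  rintro _ ⟨x, rfl⟩
  exact res₁_mem A π hπ N r hrN harch x

include hrN in
theorem gaussImage_eq (harch : ArchA π) :
    gaussImage A π (isTameField_full (L := L) (N * r)) hπ = modularFunctionFieldFullC κ N := by
  have : NeZero (N * r) := ⟨mul_ne_zero (NeZero.ne N) hr.out.ne_zero⟩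
  exact le_antisymm (gaussImage_le A π hπ N r hrN harch)
    ((full_degeneracyC_le κ (Dvd.intro r rfl)).trans (full_le_gaussImage A π hπ (N * r)))

end Fermat.Agent.LGR
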