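import Fermat.Agent.HeckeRed.GaussFunct
import Fermat.Agent.HeckeRed.FrobPow
import Fermat.Agent.HeckeRed.Package

/-!
# The multiplicative Hecke operator on Laurent series and its reduction
-/

set_option autoImplicit false

noncomputable section

open HahnSeries ModularCurve

namespace Fermat.Agent.LGR

open Fermat.Agent.Igusa Fermat.Agent.ModPoly Fermat.Agent.HeckeRed

section Def

variable {K : Type*} [Field K]

/-- `h(q^l) = ∏_j f(ζ^j q) * g(q^(l²))`: `h` is the image under the multiplicative Hecke operator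
`T_l` of `f` (with `g = <l> f`). -/
def IsT (l : ℕ) [NeZero l] (ζ : Kˣ) (f g h : LaurentSeries K) : Prop :=
  qExpand K l h = (∏ j ∈ Finset.range l, twist (ζ ^ j) f) * qExpand K l (qExpand K l g)

variable {l : ℕ} [NeZero l] {ζ : Kˣ} {f g h f' g' h' : LaurentSeries K}

theorem isT_iff [NeZero (l * l)] : IsT l ζ f g h ↔
    qExpand K l h = (∏ j ∈ Finset.range l, twist (ζ ^ j) f) * qExpand K (l * l) g := by
  rw [IsT, qExpand_qExpand]

theorem IsT.mul (H : IsT l ζ f g h) (H' : IsT l ζ f' g' h') :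
    IsT l ζ (f * f') (g * g') (h * h') := by
  rw [IsT] at *
  simp only [map_mul, Finset.prod_mul_distrib, H, H']
  ring

theorem IsT.one : IsT l ζ (1 : LaurentSeries K) 1 1 := by
  rw [IsT]
  simp only [map_one, Finset.prod_const_one, mul_one]

theorem IsT.inv (H : IsT l ζ f g h) : IsT l ζ f⁻¹ g⁻¹ h⁻¹ := by
  rw [IsT] at *
  simp only [map_inv₀, Finset.prod_inv_distrib, H, mul_inv]

theorem IsT.div (H : IsT l ζ f g h) (H' : IsT l ζ f' g' h') :
    IsT l ζ (f / f') (g / g') (h / h') := by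
  rw [div_eq_mul_inv, div_eq_mul_inv, div_eq_mul_inv]
  exact H.mul H'.inv

theorem IsT.pow (H : IsT l ζ f g h) (n : ℕ) : IsT l ζ (f ^ n) (g ^ n) (h ^ n) := by
  induction n with
  | zero => simpa using IsT.one
  | succ n ih => rw [pow_succ, pow_succ, pow_succ]; exact ih.mul H

theorem IsT.zpow (H : IsT l ζ f g h) (n : ℤ) : IsT l ζ (f ^ n) (g ^ n) (h ^ n) := by
  cases n with
  | ofNat n => simpa using H.pow n
  | negSucc n => rw [zpow_negSucc, zpow_negSucc, zpow_negSucc]; exact (H.pow _).inv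

theorem IsT.prod {ι : Type*} (s : Finset ι) {f g h : ι → LaurentSeries K}
    (H : ∀ i ∈ s, IsT l ζ (f i) (g i) (h i)) :
    IsT l ζ (∏ i ∈ s, f i) (∏ i ∈ s, g i) (∏ i ∈ s, h i) := by
  classical
  induction s using Finset.induction_on with
  | empty => simpa using IsT.one
  | insert a s ha ih =>
    rw [Finset.prod_insert ha, Finset.prod_insert ha, Finset.prod_insert ha]
    exact (H a (Finset.mem_insert_self a s)).mul
      (ih fun i hi => H i (Finset.mem_insert_of_mem hi))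

/-- constants -/
theorem IsT.const (c d : K) : IsT l ζ (algebraMap K (LaurentSeries K) c)
    (algebraMap K (LaurentSeries K) d) (algebraMap K (LaurentSeries K) (c ^ l * d)) := by
  have hq : ∀ a : K, qExpand K l (algebraMap K (LaurentSeries K) a) =
      algebraMap K (LaurentSeries K) a := fun a => by
    rw [algebraMap_eq_single, qExpand_single, mul_zero]
  rw [IsT]
  simp only [twist_algebraMap, hq, Finset.prod_const, Finset.card_range, map_mul, map_pow]

/-- `h` is determined by `f` and `g` -/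
theorem IsT.unique (H : IsT l ζ f g h) (H' : IsT l ζ f g h') : h = h' :=
  qExpand_injective' l (H.trans H'.symm)

theorem IsT.ne_zero (H : IsT l ζ f g h) (hf : f ≠ 0) (hg : g ≠ 0) : h ≠ 0 := by
  rintro rfl
  rw [IsT, map_zero] at H
  have h1 : ∀ j ∈ Finset.range l, twist (ζ ^ j) f ≠ 0 := fun j _ h0 =>
    hf (twist_injective _ (h0.trans (map_zero _).symm))
  have h2 : qExpand K l (qExpand K l g) ≠ 0 := fun h0 =>
    hg (qExpand_injective' l ((qExpand_injective' l (h0.trans (map_zero _).symm)).trans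
      (map_zero _).symm))
  exact mul_ne_zero (Finset.prod_ne_zero_iff.mpr h1) h2 H.symm

/-- in the case of diagonal `g = f`, `f = y ^ n`, etc.: existence is inherited by coefficient maps -/
theorem IsT.coeffMap {K' : Type*} [Field K'] (σ : K →+* K') (H : IsT l ζ f g h) :
    IsT l (Units.map (σ : K →* K') ζ) (coeffMap σ f) (coeffMap σ g) (coeffMap σ h) := by
  rw [IsT] at *
  rw [← coeffMap_qExpand, ← coeffMap_qExpand, ← coeffMap_qExpand, H, map_mul, map_prod]
  congr 1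
  refine Finset.prod_congr rfl fun j _ => ?_
  rw [coeffMap_twist, map_pow]

/-- the product does not depend on the primitive root of unity -/
theorem prod_twist_eq {ζ ζ' : Kˣ} (hζ : IsPrimitiveRoot ζ l)
    (hζ' : IsPrimitiveRoot ζ' l) (f : LaurentSeries K) :
    ∏ j ∈ Finset.range l, twist (ζ ^ j) f = ∏ j ∈ Finset.range l, twist (ζ' ^ j) f := by
  classical
  have key : ∀ {ξ : Kˣ}, IsPrimitiveRoot ξ l →
      ∏ j ∈ Finset.range l, twist (ξ ^ j) f = ∏ u ∈ (Finset.range l).image (fun j => ξ ^ j),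
        twist u f := by
    intro ξ hξ
    rw [Finset.prod_image]
    intro i hi j hj hij
    exact hξ.pow_inj (Finset.mem_range.mp hi) (Finset.mem_range.mp hj) hij
  rw [key hζ, key hζ']
  congr 1
  have himg : ∀ {ξ ξ' : Kˣ}, IsPrimitiveRoot ξ l → IsPrimitiveRoot ξ' l →
      (Finset.range l).image (fun j => ξ ^ j) ⊆ (Finset.range l).image (fun j => ξ' ^ j) := by
    intro ξ ξ' hξ hξ' u hu
    rw [Finset.mem_image] at hu
    obtain ⟨j, hj, rfl⟩ := hu
    have h1 : IsPrimitiveRoot ((ξ' : Kˣ) : K) l := IsPrimitiveRoot.coe_units_iff.mpr hξ'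
    have h2 : (((ξ ^ j : Kˣ)) : K) ^ l = 1 := by
      rw [← Units.val_pow_eq_pow_val, ← pow_mul, mul_comm, pow_mul, hξ.pow_eq_one, one_pow,
        Units.val_one]
    obtain ⟨i, hi, h3⟩ := h1.eq_pow_of_pow_eq_one h2
    rw [Finset.mem_image]
    refine ⟨i, Finset.mem_range.mpr hi, ?_⟩
    ext
    rw [Units.val_pow_eq_pow_val, h3]
  exact Finset.Subset.antisymm (himg hζ hζ') (himg hζ' hζ)

theorem IsT.of_primitive {ζ' : Kˣ} (H : IsT l ζ f g h) (hζ : IsPrimitiveRoot ζ l)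
    (hζ' : IsPrimitiveRoot ζ' l) : IsT l ζ' f g h := by
  rw [IsT] at *
  rw [H, prod_twist_eq hζ hζ']

end Def

section Reduction

variable {L : Type*} [Field L] {A : ValuationSubring L} {κ : Type*} [Field κ] {π : A →+* κ}
  {l : ℕ} [NeZero l]

/-- a root of unity is a unit of the valuation ring -/
theorem exists_unit_of_pow_eq_one {ζ : Lˣ} (h : ζ ^ l = 1) :
    ∃ u : Aˣ, Units.map (A.subtype : A →* L) u = ζ ∧ u ^ l = 1 := by
  have h0 : l ≠ 0 := NeZero.ne l
  have key : ∀ ξ : Lˣ, ξ ^ l = 1 → (ξ : L) ∈ A := by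
    intro ξ hξ
    rcases A.mem_or_inv_mem (ξ : L) with h1 | h1
    · exact h1
    · have h2 : (ξ : L) = ((ξ : L)⁻¹) ^ (l - 1) := by
        have h3 : (ξ : L) ^ l = 1 := by rw [← Units.val_pow_eq_pow_val, hξ, Units.val_one]
        obtain ⟨m, rfl⟩ := Nat.exists_eq_succ_of_ne_zero h0
        rw [Nat.succ_sub_one, inv_pow]
        rw [pow_succ] at h3
        exact eq_inv_of_mul_eq_one_right h3
      rw [h2]
      exact pow_mem h1 _
  have hi : (ζ⁻¹ : Lˣ) ^ l = 1 := by rw [inv_pow, h, inv_one]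
  refine ⟨⟨⟨ζ, key ζ h⟩, ⟨(ζ⁻¹ : Lˣ), key _ hi⟩, Subtype.ext ?_, Subtype.ext ?_⟩, ?_, ?_⟩
  · exact ζ.mul_inv
  · exact ζ.inv_mul
  · ext; rfl
  · ext
    push_cast
    have := congrArg (fun x : Lˣ => (x : L)) h
    simpa using this

/-- **LG-ES (b)**: reduction of the relation -/
theorem IsT.res {u : Aˣ} {f g h : LaurentSeries L}
    (H : IsT l (Units.map (A.subtype : A →* L) u) f g h) (hf : f ∈ gaussRing A π)
    (hg : g ∈ gaussRing A π) (hh : h ∈ gaussRing A π) :
    IsT l (Units.map (π : A →* κ) u) (gaussRes A π ⟨f, hf⟩) (gaussRes A π ⟨g, hg⟩)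
      (gaussRes A π ⟨h, hh⟩) := by
  have e1 := (GaussEnd.qExp A π l).res hh
  have e2 := (GaussEnd.qExp A π l).res ((GaussEnd.qExp A π l).mem hg)
  have e2' := (GaussEnd.qExp A π l).res hg
  have e3 : ∀ j, gaussRes A π ⟨_, (GaussEnd.twi π (u ^ j)).mem hf⟩ =
      twist (Units.map (π : A →* κ) u ^ j) (gaussRes A π ⟨f, hf⟩) := by
    intro j
    have := (GaussEnd.twi π (u ^ j)).res hf
    rw [this]
    show twist (Units.map (π : A →* κ) (u ^ j)) _ = _
    rw [map_pow]
  rw [IsT]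
  have h1 : (⟨_, (GaussEnd.qExp A π l).mem hh⟩ : gaussRing A π) =
      (∏ j ∈ Finset.range l, ⟨_, (GaussEnd.twi π (u ^ j)).mem hf⟩) *
        ⟨_, (GaussEnd.qExp A π l).mem ((GaussEnd.qExp A π l).mem hg)⟩ := by
    apply Subtype.ext
    rw [Subring.coe_mul, ← Subring.subtype_apply (∏ j ∈ Finset.range l, _), map_prod]
    have h2 : (GaussEnd.qExp A π l).onL h = qExpand L l h := rfl
    show (GaussEnd.qExp A π l).onL h = _
    rw [h2, H]
    rfl
  have h2 := congrArg (gaussRes A π) h1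
  rw [map_mul, map_prod] at h2
  have e1' : gaussRes A π ⟨_, (GaussEnd.qExp A π l).mem hh⟩ =
      qExpand κ l (gaussRes A π ⟨h, hh⟩) := e1
  have e4 : gaussRes A π ⟨_, (GaussEnd.qExp A π l).mem ((GaussEnd.qExp A π l).mem hg)⟩ =
      qExpand κ l (qExpand κ l (gaussRes A π ⟨g, hg⟩)) := by
    rw [e2]
    exact congrArg (qExpand κ l) e2'
  rw [e1', e4] at h2
  rw [h2]
  congr 1
  exact Finset.prod_congr rfl fun j _ => e3 j

/-- (b) for roots of unity -/
theorem IsT.exists_res {ζ : Lˣ} (hζ : ζ ^ l = 1) {f g h : LaurentSeries L}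
    (H : IsT l ζ f g h) (hf : f ∈ gaussRing A π) (hg : g ∈ gaussRing A π)
    (hh : h ∈ gaussRing A π) :
    ∃ u : Aˣ, Units.map (A.subtype : A →* L) u = ζ ∧ u ^ l = 1 ∧
      IsT l (Units.map (π : A →* κ) u) (gaussRes A π ⟨f, hf⟩) (gaussRes A π ⟨g, hg⟩)
      (gaussRes A π ⟨h, hh⟩) := by
  obtain ⟨u, rfl, hu⟩ := exists_unit_of_pow_eq_one (A := A) hζ
  exact ⟨u, rfl, hu, H.res hf hg hh⟩

/-- **LG-ES (a)**: Eichler–Shimura congruence on Laurent series -/
theorem IsT.res_eq [hl : Fact l.Prime] [CharP κ l] [PerfectRing κ l] {ζ : Lˣ} (hζ : ζ ^ l = 1)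
    {f g h : LaurentSeries L} (H : IsT l ζ f g h) (hf : f ∈ gaussRing A π)
    (hg : g ∈ gaussRing A π) (hh : h ∈ gaussRing A π) :
    gaussRes A π ⟨h, hh⟩ = ModularCurve.coeffMap (frobenius κ l) (gaussRes A π ⟨f, hf⟩) *
      (ModularCurve.coeffMap ((frobeniusEquiv κ l).symm : κ →+* κ)
        (gaussRes A π ⟨g, hg⟩)) ^ l := by
  obtain ⟨u, -, hu, H'⟩ := H.exists_res hζ hf hg hh
  have h1 : Units.map (π : A →* κ) u = 1 := by
    ext
    have h2 : (((Units.map (π : A →* κ) u : κˣ)) : κ) ^ l = 1 := by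
      rw [← Units.val_pow_eq_pow_val, ← map_pow, hu, map_one, Units.val_one]
    have h3 : (((Units.map (π : A →* κ) u : κˣ)) : κ) = 1 := by
      have h4 : ((((Units.map (π : A →* κ) u : κˣ)) : κ) - 1) ^ l = 0 := by
        rw [sub_pow_char, h2, one_pow, sub_self]
      exact sub_eq_zero.mp (pow_eq_zero_iff hl.out.ne_zero |>.mp h4)
    rw [h3, Units.val_one]
  rw [h1, IsT] at H'
  simp only [one_pow, twist_one, Finset.prod_const, Finset.card_range] at H'
  apply qExpand_injective' l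
  rw [H', map_mul, pow_char_laurent]
  congr 2
  rw [pow_char_laurent]
  congr 1
  ext n
  rw [coeffMap_coeff, coeffMap_coeff]
  exact ((frobeniusEquiv κ l).apply_symm_apply _).symm

end Reduction

section Coef

variable {L : Type*} [Field L] {A : ValuationSubring L} {κ : Type*} [Field κ] {π : A →+* κ}

/-- **LG-ES (d)** -/
theorem gaussRes_coeffMap (σ : L →+* L) (σA : A →+* A) (σκ : κ →+* κ) (h1 : ∀ a : A, σ a = σA a)
    (h2 : ∀ a : A, σκ (π a) = π (σA a)) {x : LaurentSeries L} (hx : x ∈ gaussRing A π) :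
    ∃ h : ModularCurve.coeffMap σ x ∈ gaussRing A π,
      gaussRes A π ⟨_, h⟩ = ModularCurve.coeffMap σκ (gaussRes A π ⟨x, hx⟩) :=
  ⟨(GaussEnd.coef σ σA σκ h1 h2).mem hx, (GaussEnd.coef σ σA σκ h1 h2).res hx⟩

theorem gaussRes_coeffMap_of_inertia (σ : L →+* L) (σA : A →+* A) (h1 : ∀ a : A, σ a = σA a)
    (h2 : ∀ a : A, π (σA a) = π a) {x : LaurentSeries L} (hx : x ∈ gaussRing A π) :
    ∃ h : ModularCurve.coeffMap σ x ∈ gaussRing A π,
      gaussRes A π ⟨_, h⟩ = gaussRes A π ⟨x, hx⟩ := by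
  obtain ⟨h, e⟩ := gaussRes_coeffMap σ σA (RingHom.id κ) h1 (fun a => (h2 a).symm) hx
  refine ⟨h, e.trans ?_⟩
  ext n
  rw [coeffMap_coeff]
  rfl

end Coef

section Qbar

variable {L : Type*} [Field L] [Algebra ℚ L] {A : ValuationSubring L} {κ : Type*} [Field κ]
  {π : A →+* κ} [IsLocalHom π]

omit [Algebra ℚ L] in
theorem pi_eq_of_residue_eq {a b : A} (h : IsLocalRing.residue A a = IsLocalRing.residue A b) :
    π a = π b := by
  have h1 : IsLocalRing.residue A (a - b) = 0 := by rw [map_sub, h, sub_self]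
  rw [IsLocalRing.residue_eq_zero_iff, IsLocalRing.mem_maximalIdeal, mem_nonunits_iff] at h1
  by_contra hne
  apply h1
  have h2 : π (a - b) ≠ 0 := by rw [map_sub]; exact sub_ne_zero.mpr hne
  exact isUnit_of_map_unit π _ h2.isUnit

variable (π) in
theorem exists_inertia {σ : L ≃ₐ[ℚ] L} (hσ : σ ∈ A.inertiaSubgroupIn ℚ) :
    ∃ σA : A →+* A, (∀ a : A, σ a = σA a) ∧ ∀ a : A, π (σA a) = π a := by
  obtain ⟨σA, h1, h2⟩ := exists_of_inertia hσ
  exact ⟨σA, h1, fun a => pi_eq_of_residue_eq (h2 a).symm⟩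

variable (π) in
theorem exists_frobenius {ℓ : ℕ} [Fact ℓ.Prime] [CharP κ ℓ] {σ : L ≃ₐ[ℚ] L}
    (hσ : A.IsFrobeniusAt σ ℓ) :
    ∃ σA : A →+* A, (∀ a : A, σ a = σA a) ∧ ∀ a : A, frobenius κ ℓ (π a) = π (σA a) := by
  refine ⟨MulSemiringAction.toRingHom (A.decompositionSubgroup ℚ) A
    ⟨σ, hσ.mem_decompositionSubgroup⟩, fun a => rfl, fun a => ?_⟩
  rw [frobenius_def, ← map_pow]
  apply pi_eq_of_residue_eq
  rw [residue_smul_decomp, hσ.smul_residue_eq, map_pow]

/-- elements of inertia act trivially on residues -/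
theorem gaussRes_inertia {σ : L ≃ₐ[ℚ] L} (hσ : σ ∈ A.inertiaSubgroupIn ℚ)
    {x : LaurentSeries L} (hx : x ∈ gaussRing A π) :
    ∃ h : ModularCurve.coeffMap (σ : L →+* L) x ∈ gaussRing A π,
      gaussRes A π ⟨_, h⟩ = gaussRes A π ⟨x, hx⟩ := by
  obtain ⟨σA, h1, h2⟩ := exists_inertia π hσ
  exact gaussRes_coeffMap_of_inertia (σ : L →+* L) σA h1 h2 hx

/-- Frobenius elements act on residues through the coefficientwise Frobenius -/
theorem gaussRes_frobenius {ℓ : ℕ} [Fact ℓ.Prime] [CharP κ ℓ] {σ : L ≃ₐ[ℚ] L}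
    (hσ : A.IsFrobeniusAt σ ℓ) {x : LaurentSeries L} (hx : x ∈ gaussRing A π) :
    ∃ h : ModularCurve.coeffMap (σ : L →+* L) x ∈ gaussRing A π,
      gaussRes A π ⟨_, h⟩ = ModularCurve.coeffMap (frobenius κ ℓ) (gaussRes A π ⟨x, hx⟩) := by
  obtain ⟨σA, h1, h2⟩ := exists_frobenius π hσ
  exact gaussRes_coeffMap (σ : L →+* L) σA (frobenius κ ℓ) h1 h2 hx

end Qbar

end Fermat.Agent.LGR
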